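import Mathlib

/-!
# S16 / LB — summability of Gaussian sums over `ℤⁿ`

* `exists_pos_le_quadratic`: a positive definite real quadratic form dominates `c · Σ xᵢ²`.
* `summable_exp_neg_quadratic`: `Σ_{y ∈ ℤⁿ} exp (-c · yᵀ M y) < ∞`.
-/

set_option autoImplicit false

open Matrix

namespace Fermat.Agent.S16.H354

/-- One-dimensional Gaussian sums converge. -/
theorem summable_exp_neg_mul_int_sq {c : ℝ} (hc : 0 < c) :
    Summable fun m : ℤ => Real.exp (-c * (m : ℝ) ^ 2) := by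
  have hnat : Summable fun n : ℕ => Real.exp (-c * (n : ℝ) ^ 2) := by
    refine Real.summable_exp_nat_mul_of_ge (by linarith) fun i => ?_
    have h1 : (0 : ℝ) ≤ i := Nat.cast_nonneg i
    rcases Nat.eq_zero_or_pos i with h | h
    · simp [h]
    · have : (1 : ℝ) ≤ i := by exact_mod_cast h
      nlinarith
  refine Summable.of_nat_of_neg ?_ ?_
  · simpa using hnat
  · simpa using hnat

/-- Product Gaussians are summable over `ℤⁿ`. -/
theorem summable_exp_neg_sum_sq {c : ℝ} (hc : 0 < c) (n : ℕ) :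
    Summable fun y : Fin n → ℤ => Real.exp (-c * ∑ i, (y i : ℝ) ^ 2) := by
  induction n with
  | zero => exact Summable.of_finite
  | succ n ih =>
    have h1 := (summable_exp_neg_mul_int_sq hc).mul_of_nonneg ih
      (fun _ => (Real.exp_pos _).le) (fun _ => (Real.exp_pos _).le)
    rw [← (Fin.consEquiv (fun _ : Fin (n + 1) => ℤ)).symm.summable_iff] at h1
    refine h1.congr fun y => ?_
    simp only [Function.comp_apply, Fin.consEquiv_symm_apply, Fin.sum_univ_succ, ← Real.exp_add]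
    congr 1
    simp [Fin.tail]
    ring

/-- A positive definite quadratic form dominates a multiple of the sum of squares. -/
theorem exists_pos_le_quadratic {n : ℕ} (M : Matrix (Fin n) (Fin n) ℝ)
    (hM : ∀ x : Fin n → ℝ, x ≠ 0 → 0 < x ⬝ᵥ (M *ᵥ x)) :
    ∃ c > 0, ∀ x : Fin n → ℝ, c * ∑ i, x i ^ 2 ≤ x ⬝ᵥ (M *ᵥ x) := by
  rcases Nat.eq_zero_or_pos n with h0 | hn
  · subst h0
    exact ⟨1, one_pos, fun x => by simp [dotProduct]⟩
  have : Nonempty (Fin n) := ⟨⟨0, hn⟩⟩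
  have hcont : Continuous fun x : Fin n → ℝ => x ⬝ᵥ (M *ᵥ x) := by
    unfold dotProduct mulVec dotProduct
    fun_prop
  have hK : IsCompact (Metric.sphere (0 : Fin n → ℝ) 1) := isCompact_sphere 0 1
  have hne : (Metric.sphere (0 : Fin n → ℝ) 1).Nonempty := by
    refine ⟨fun _ => 1, ?_⟩
    simp [pi_norm_const]
  obtain ⟨x₀, hx₀, hmin⟩ := hK.exists_isMinOn hne hcont.continuousOn
  have hx₀ne : x₀ ≠ 0 := by
    intro h
    rw [h] at hx₀
    simp at hx₀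
  set c₀ := x₀ ⬝ᵥ (M *ᵥ x₀) with hc₀
  have hc₀pos : 0 < c₀ := hM x₀ hx₀ne
  have key : ∀ x : Fin n → ℝ, c₀ * ‖x‖ ^ 2 ≤ x ⬝ᵥ (M *ᵥ x) := by
    intro x
    by_cases hx : x = 0
    · subst hx; simp
    have hnx : 0 < ‖x‖ := norm_pos_iff.mpr hx
    have hmem : (‖x‖⁻¹ • x) ∈ Metric.sphere (0 : Fin n → ℝ) 1 := by
      rw [mem_sphere_zero_iff_norm, norm_smul, norm_inv, norm_norm, inv_mul_cancel₀ hnx.ne']
    have h1 : c₀ ≤ (‖x‖⁻¹ • x) ⬝ᵥ (M *ᵥ (‖x‖⁻¹ • x)) := hmin hmem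
    rw [mulVec_smul, dotProduct_smul, smul_dotProduct, smul_eq_mul, smul_eq_mul] at h1
    have h2 : c₀ * ‖x‖ ^ 2 ≤ (‖x‖⁻¹ * (‖x‖⁻¹ * x ⬝ᵥ M *ᵥ x)) * ‖x‖ ^ 2 :=
      mul_le_mul_of_nonneg_right h1 (by positivity)
    calc c₀ * ‖x‖ ^ 2 ≤ (‖x‖⁻¹ * (‖x‖⁻¹ * x ⬝ᵥ M *ᵥ x)) * ‖x‖ ^ 2 := h2
      _ = x ⬝ᵥ M *ᵥ x := by field_simp
  refine ⟨c₀ / n, by positivity, fun x => ?_⟩
  have hsum : ∑ i, x i ^ 2 ≤ n * ‖x‖ ^ 2 := by
    calc ∑ i, x i ^ 2 ≤ ∑ _i : Fin n, ‖x‖ ^ 2 := by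
          refine Finset.sum_le_sum fun i _ => ?_
          have := norm_le_pi_norm x i
          rw [Real.norm_eq_abs] at this
          calc x i ^ 2 = |x i| ^ 2 := (sq_abs _).symm
            _ ≤ ‖x‖ ^ 2 := by gcongr
      _ = n * ‖x‖ ^ 2 := by simp
  have hn' : (0 : ℝ) < n := by exact_mod_cast hn
  calc c₀ / n * ∑ i, x i ^ 2 ≤ c₀ / n * (n * ‖x‖ ^ 2) := by gcongr
    _ = c₀ * ‖x‖ ^ 2 := by field_simp
    _ ≤ _ := key x

/-- Gaussian sums over `ℤⁿ` for a positive definite quadratic form converge. -/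
theorem summable_exp_neg_quadratic {n : ℕ} (M : Matrix (Fin n) (Fin n) ℝ)
    (hM : ∀ x : Fin n → ℝ, x ≠ 0 → 0 < x ⬝ᵥ (M *ᵥ x)) {c : ℝ} (hc : 0 < c) :
    Summable fun y : Fin n → ℤ =>
      Real.exp (-c * ((fun i => (y i : ℝ)) ⬝ᵥ (M *ᵥ (fun i => (y i : ℝ))))) := by
  obtain ⟨c₁, hc₁, hbound⟩ := exists_pos_le_quadratic M hM
  refine (summable_exp_neg_sum_sq (mul_pos hc hc₁) n).of_nonneg_of_le
    (fun _ => (Real.exp_pos _).le) fun y => ?_
  rw [Real.exp_le_exp]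
  have := hbound (fun i => (y i : ℝ))
  nlinarith

end Fermat.Agent.S16.H354
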