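import Fermat.Agent.S16.H354.ThetaFun

/-!
# S16 / LB — `θ_0` as a modular form of weight `2` on `Γ₀(p)` and its `q`-expansion
-/

set_option autoImplicit false
set_option linter.unusedSectionVars false

open Matrix Complex ModularGroup
open UpperHalfPlane hiding I
open scoped MatrixGroups ModularForm Real Manifold

local notation "𝕢" => Function.Periodic.qParam

namespace Fermat.Agent.S16.H354

theorem even_natCard_of_involution {α : Type*} (f : α → α) (hf : ∀ x, f (f x) = x)
    (hfix : ∀ x, f x ≠ x) : Even (Nat.card α) := by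
  classical
  rcases finite_or_infinite α with hfin | hinf
  · have := Fintype.ofFinite α
    let σ : Equiv.Perm α := ⟨f, f, hf, hf⟩
    have hσ : σ ^ 2 = 1 := by
      ext x
      simp [sq, σ, hf]
    have h2 := Equiv.Perm.two_dvd_card_support hσ
    have hsupp : σ.support = Finset.univ := by
      ext x
      simp only [Equiv.Perm.mem_support, Finset.mem_univ, iff_true]
      exact hfix x
    rw [hsupp, Finset.card_univ] at h2
    rw [Nat.card_eq_fintype_card]
    exact even_iff_two_dvd.mpr h2
  · rw [Nat.card_eq_zero_of_infinite]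
    exact Even.zero

namespace LevelLattice

variable {p n : ℕ} [hp : Fact p.Prime] (L : LevelLattice p n)

theorem differentiable_term (y : Fin n → ℤ) : Differentiable ℂ fun w : ℂ => L.term w y := by
  unfold term
  fun_prop

/-- The theta functions are holomorphic. -/
theorem mdifferentiable_theta (d : L.D) : MDiff (L.theta d) := by
  rw [UpperHalfPlane.mdifferentiable_iff]
  intro z hz
  have hz' : 0 < z.im := hz
  set δ : ℝ := z.im / 2 with hδ
  have hδpos : 0 < δ := by positivity
  have hp0 : (0 : ℝ) < p := Nat.cast_pos.mpr hp.out.pos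
  let U : Set ℂ := {w | δ < w.im}
  have hU : IsOpen U := isOpen_lt continuous_const Complex.continuous_im
  have hzU : z ∈ U := by
    change δ < z.im
    rw [hδ]; linarith
  have hsum : Summable fun y : (L.cls ⁻¹' {d} : Set (Fin n → ℤ)) =>
      ‖L.term ((δ : ℂ) * Complex.I) y‖ :=
    (L.summable_norm_term (τ := (δ : ℂ) * Complex.I) (by simpa using hδpos)).subtype _
  have hF : DifferentiableOn ℂ
      (fun w : ℂ => ∑' y : (L.cls ⁻¹' {d} : Set (Fin n → ℤ)), L.term w y) U := by
    refine differentiableOn_tsum_of_summable_norm hsum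
      (fun y => (L.differentiable_term y).differentiableOn) hU fun y w hw => ?_
    rw [L.norm_term, L.norm_term, Real.exp_le_exp]
    have h1 : (0 : ℝ) ≤ qf L.B (y : Fin n → ℤ) := by exact_mod_cast L.qf_B_nonneg y
    have h2 : π * ((δ : ℂ) * Complex.I).im / p ≤ π * w.im / p := by
      have : ((δ : ℂ) * Complex.I).im = δ := by simp
      rw [this]
      have hw' : δ < w.im := hw
      gcongr
    nlinarith [mul_le_mul_of_nonneg_right h2 h1]
  have hat : DifferentiableAt ℂ
      (fun w : ℂ => ∑' y : (L.cls ⁻¹' {d} : Set (Fin n → ℤ)), L.term w y) z :=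
    hF.differentiableAt (hU.mem_nhds hzU)
  refine (hat.congr_of_eventuallyEq ?_).differentiableWithinAt
  filter_upwards [hU.mem_nhds hzU] with w hw
  have hw' : 0 < w.im := lt_trans hδpos hw
  simp only [Function.comp_apply, theta, ofComplex_apply_of_im_pos hw']

theorem hqA_nonneg (x : Fin n → ℤ) : 0 ≤ L.hqA x := by
  have h1 : 0 ≤ qf L.A x := by
    by_cases hx : x = 0
    · subst hx; simp [qf]
    · have h : toR x ≠ 0 := by
        intro h0
        apply hx
        funext i
        have := congrFun h0 i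
        simpa [toR] using this
      have := L.pos (toR x) h
      rw [← cast_qf] at this
      exact_mod_cast this.le
  have h2 := L.two_mul_hqA x
  omega

theorem hqA_eq_zero_iff (x : Fin n → ℤ) : L.hqA x = 0 ↔ x = 0 := by
  constructor
  · intro h0
    by_contra hx
    have h : toR x ≠ 0 := by
      intro h0
      apply hx
      funext i
      have := congrFun h0 i
      simpa [toR] using this
    have := L.pos (toR x) h
    rw [← cast_qf, ← L.two_mul_hqA, h0] at this
    simp at this
  · rintro rfl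
    simp [hqA, qf]

/-- The exponent of `q` attached to a lattice vector. -/
def expo (x : Fin n → ℤ) : ℕ := (L.hqA x).toNat

theorem cast_expo (x : Fin n → ℤ) : ((L.expo x : ℕ) : ℤ) = L.hqA x :=
  Int.toNat_of_nonneg (L.hqA_nonneg x)

theorem term_A_eq (τ : ℂ) (x : Fin n → ℤ) :
    L.term τ (L.A *ᵥ x + 0) = 𝕢 1 τ ^ L.expo x := by
  have hp0 : (p : ℂ) ≠ 0 := Nat.cast_ne_zero.mpr hp.out.ne_zero
  unfold term Function.Periodic.qParam
  rw [add_zero, L.qf_B_A, ← L.two_mul_hqA, ← L.cast_expo, ← Complex.exp_nat_mul]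
  congr 1
  push_cast
  field_simp

/-- The representation numbers `r(m) = #{x : q_A(x) = 2m}`. -/
noncomputable def repNum (m : ℕ) : ℕ := Nat.card (L.expo ⁻¹' {m} : Set (Fin n → ℤ))

theorem cls_zero : L.cls 0 = 0 := Submodule.Quotient.mk_zero _

/-- The `q`-expansion of `θ_0`, as a convergent series. -/
theorem hasSum_theta_zero (τ : ℍ) :
    HasSum (fun m : ℕ => (L.repNum m : ℂ) • 𝕢 1 (τ : ℂ) ^ m) (L.theta 0 τ) := by
  have h1 : L.theta 0 τ = ∑' x : Fin n → ℤ, 𝕢 1 (τ : ℂ) ^ L.expo x := by
    rw [← L.cls_zero, L.theta_cls_eq_tsum]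
    exact tsum_congr fun x => L.term_A_eq τ x
  have hs : Summable fun x : Fin n → ℤ => 𝕢 1 (τ : ℂ) ^ L.expo x := by
    have := (L.summable_term τ.im_pos).comp_injective
      (i := fun x : Fin n → ℤ => L.A *ᵥ x + 0) (by
        intro x y hxy
        simp only [add_zero] at hxy
        exact L.injective_mulVec_A hxy)
    refine this.congr fun x => ?_
    exact L.term_A_eq τ x
  have h2 := hs.hasSum.tsum_fiberwise L.expo
  rw [← h1] at h2
  have h3 : (fun m : ℕ => (L.repNum m : ℂ) • 𝕢 1 (τ : ℂ) ^ m)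
      = fun m : ℕ => ∑' b : (L.expo ⁻¹' {m} : Set (Fin n → ℤ)), 𝕢 1 (τ : ℂ) ^ L.expo b := by
    funext m
    have : ∀ b : (L.expo ⁻¹' {m} : Set (Fin n → ℤ)),
        𝕢 1 (τ : ℂ) ^ L.expo b = 𝕢 1 (τ : ℂ) ^ m := by
      intro b
      have hb : L.expo (b : Fin n → ℤ) = m := b.2
      rw [hb]
    simp only [this]
    rw [tsum_const, repNum, Nat.cast_smul_eq_nsmul]
  rw [h3]
  exact h2

theorem repNum_zero : L.repNum 0 = 1 := by
  unfold repNum
  rw [Nat.card_eq_one_iff_unique]
  refine ⟨⟨?_⟩, ⟨⟨0, ?_⟩⟩⟩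
  · rintro ⟨x, hx⟩ ⟨y, hy⟩
    have hx' : L.expo x = 0 := hx
    have hy' : L.expo y = 0 := hy
    have h1 : L.hqA x = 0 := by rw [← L.cast_expo, hx']; rfl
    have h2 : L.hqA y = 0 := by rw [← L.cast_expo, hy']; rfl
    apply Subtype.ext
    change x = y
    rw [(L.hqA_eq_zero_iff x).mp h1, (L.hqA_eq_zero_iff y).mp h2]
  · change L.expo 0 = 0
    unfold expo
    rw [(L.hqA_eq_zero_iff 0).mpr rfl]
    rfl

theorem hqA_neg (x : Fin n → ℤ) : L.hqA (-x) = L.hqA x := by
  unfold hqA; rw [qf_neg]

theorem even_repNum {m : ℕ} (hm : m ≠ 0) : Even (L.repNum m) := by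
  unfold repNum
  refine even_natCard_of_involution
    (fun x : (L.expo ⁻¹' {m} : Set (Fin n → ℤ)) => ⟨-x.1, ?_⟩) ?_ ?_
  · have hx : L.expo x.1 = m := x.2
    change L.expo (-x.1) = m
    unfold expo at hx ⊢
    rw [L.hqA_neg, hx]
  · intro x
    apply Subtype.ext
    simp
  · intro x hx
    have h1 : -x.1 = x.1 := congrArg Subtype.val hx
    have h2 : x.1 = 0 := by
      funext i
      have := congrFun h1 i
      simp only [Pi.neg_apply, Pi.zero_apply] at this ⊢
      omega
    have h3 : L.expo x.1 = m := x.2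
    rw [h2] at h3
    apply hm
    rw [← h3]
    unfold expo
    rw [(L.hqA_eq_zero_iff 0).mpr rfl]
    rfl

end LevelLattice

section Form

variable {p : ℕ} [hp : Fact p.Prime] (L : LevelLattice p 4)

/-- `θ_0` as a modular form of weight `2` on `Γ₀(p)`. -/
noncomputable def LevelLattice.thetaForm (hInv : L.Inversion) :
    ModularForm (CongruenceSubgroup.Gamma0 p) 2 where
  toFun := L.theta 0
  slash_action_eq' := by
    rintro _ ⟨γ, hγ, rfl⟩
    exact (ModularForm.SL_slash (f := L.theta 0) (k := 2) γ).symm.trans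
      (L.theta_zero_slash hInv hγ)
  holo' := L.mdifferentiable_theta 0
  bdd_at_cusps' {c} hc := by
    rw [Subgroup.IsArithmetic.isCusp_iff_isCusp_SL2Z] at hc
    rw [OnePoint.isBoundedAt_iff_forall_SL2Z hc]
    intro γ _
    exact L.isBoundedAtImInfty_theta_zero_slash hInv γ

@[simp] theorem LevelLattice.coe_thetaForm (hInv : L.Inversion) :
    ⇑(L.thetaForm hInv) = L.theta 0 := rfl

theorem LevelLattice.qExpansion_thetaForm_coeff (hInv : L.Inversion) (m : ℕ) :
    (UpperHalfPlane.qExpansion 1 (L.thetaForm hInv)).coeff m = (L.repNum m : ℂ) := by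
  have hΓ : (1 : ℝ) ∈ ((CongruenceSubgroup.Gamma0 p : Subgroup SL(2, ℤ)) :
      Subgroup (GL (Fin 2) ℝ)).strictPeriods := by simp
  exact (ModularFormClass.qExpansion_coeff_unique one_pos hΓ (f := L.thetaForm hInv)
    (c := fun m => (L.repNum m : ℂ)) (fun τ => L.hasSum_theta_zero τ) m).symm

/-- **(LB), theta form.** A lattice of dimension `4`, level `p`, determinant `p²` satisfying the
inversion formula yields a modular form of weight `2` on `Γ₀(p)` with constant term `1` and even
higher coefficients. -/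
theorem LevelLattice.exists_form (hInv : L.Inversion) :
    ∃ G : ModularForm (CongruenceSubgroup.Gamma0 p) 2,
      (UpperHalfPlane.qExpansion 1 G).coeff 0 = 1 ∧
      ∀ m : ℕ, m ≠ 0 → ∃ z : ℤ, (UpperHalfPlane.qExpansion 1 G).coeff m = 2 * (z : ℂ) := by
  refine ⟨L.thetaForm hInv, ?_, fun m hm => ?_⟩
  · rw [L.qExpansion_thetaForm_coeff hInv, L.repNum_zero]
    simp
  · obtain ⟨r, hr⟩ := L.even_repNum hm
    refine ⟨r, ?_⟩
    rw [L.qExpansion_thetaForm_coeff hInv, hr]
    push_cast
    ring

end Form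

end Fermat.Agent.S16.H354
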