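import Fermat.Agent.S16.H354.ThetaLattice

/-!
# S16 / LB — theta functions of the classes of the discriminant group

For `d ∈ D = ℤⁿ / A ℤⁿ` we define `θ_d(τ) = Σ_{y ∈ d} exp(π i τ q_B(y) / p)` and prove
summability and the transformation law under `T`.
-/

set_option autoImplicit false
set_option linter.unusedSectionVars false

open Matrix Complex ModularGroup
open UpperHalfPlane hiding I
open scoped MatrixGroups ModularForm Real

namespace Fermat.Agent.S16.H354

namespace LevelLattice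

variable {p n : ℕ} [hp : Fact p.Prime] (L : LevelLattice p n)

/-- Cast of an integer vector to the reals. -/
def toR (y : Fin n → ℤ) : Fin n → ℝ := fun i => (y i : ℝ)

/-- The real Gram matrices. -/
def AR : Matrix (Fin n) (Fin n) ℝ := L.A.map (Int.cast : ℤ → ℝ)

/-- The real dual Gram matrix. -/
def BR : Matrix (Fin n) (Fin n) ℝ := L.B.map (Int.cast : ℤ → ℝ)

theorem cast_qf (M : Matrix (Fin n) (Fin n) ℤ) (y : Fin n → ℤ) :
    ((qf M y : ℤ) : ℝ) = toR y ⬝ᵥ (M.map (Int.cast : ℤ → ℝ) *ᵥ toR y) := by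
  unfold qf toR dotProduct mulVec dotProduct
  push_cast
  rfl

theorem AR_mul_BR : L.AR * L.BR = (p : ℝ) • (1 : Matrix (Fin n) (Fin n) ℝ) := by
  ext i j
  have h := congrArg (fun z : ℤ => (z : ℝ)) (congrFun (congrFun L.A_mul_B i) j)
  simp only [Matrix.mul_apply, Matrix.smul_apply, Matrix.one_apply] at h
  simp only [AR, BR, Matrix.mul_apply, Matrix.map_apply, Matrix.smul_apply, Matrix.one_apply]
  push_cast at h
  rw [h]
  split_ifs <;> simp

theorem BR_symm : L.BRᵀ = L.BR := by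
  unfold BR
  rw [← Matrix.transpose_map, L.B_symm.eq]

/-- The dual form is positive definite as well. -/
theorem posB (y : Fin n → ℝ) (hy : y ≠ 0) : 0 < y ⬝ᵥ (L.BR *ᵥ y) := by
  have hp0 : (0 : ℝ) < p := Nat.cast_pos.mpr hp.out.pos
  have h1 : L.AR *ᵥ (L.BR *ᵥ y) = (p : ℝ) • y := by
    rw [mulVec_mulVec, L.AR_mul_BR, smul_mulVec, one_mulVec]
  have hne : L.BR *ᵥ y ≠ 0 := by
    intro h0
    rw [h0, mulVec_zero] at h1
    exact hy ((smul_eq_zero.mp h1.symm).resolve_left hp0.ne')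
  have h2 := L.pos (L.BR *ᵥ y) hne
  change 0 < (L.BR *ᵥ y) ⬝ᵥ (L.AR *ᵥ (L.BR *ᵥ y)) at h2
  rw [h1, dotProduct_smul, smul_eq_mul] at h2
  have h3 : (L.BR *ᵥ y) ⬝ᵥ y = y ⬝ᵥ (L.BR *ᵥ y) := by
    rw [dotProduct_comm]
  rw [h3] at h2
  exact (mul_pos_iff_of_pos_left hp0).mp h2

/-- The Gaussian term `exp(π i τ q_B(y) / p)`. -/
noncomputable def term (τ : ℂ) (y : Fin n → ℤ) : ℂ :=
  Complex.exp (π * I * τ * (qf L.B y : ℂ) / p)

theorem norm_term (τ : ℂ) (y : Fin n → ℤ) :
    ‖L.term τ y‖ = Real.exp (-(π * τ.im / p) * (qf L.B y : ℝ)) := by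
  unfold term
  rw [Complex.norm_exp]
  congr 1
  have : (π * I * τ * (qf L.B y : ℂ) / p) = ((π * (qf L.B y : ℝ) / p : ℝ) : ℂ) * (I * τ) := by
    push_cast; ring
  rw [this, Complex.re_ofReal_mul]
  simp only [Complex.mul_re, Complex.I_re, Complex.I_im, zero_mul, one_mul, zero_sub]
  ring

theorem summable_norm_term {τ : ℂ} (hτ : 0 < τ.im) :
    Summable fun y : Fin n → ℤ => ‖L.term τ y‖ := by
  have hp0 : (0 : ℝ) < p := Nat.cast_pos.mpr hp.out.pos
  have hc : 0 < π * τ.im / p := by positivity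
  have h := summable_exp_neg_quadratic L.BR L.posB hc
  refine h.congr fun y => ?_
  rw [L.norm_term, cast_qf]
  rfl

theorem summable_term {τ : ℂ} (hτ : 0 < τ.im) : Summable fun y : Fin n → ℤ => L.term τ y :=
  (L.summable_norm_term hτ).of_norm

/-- The theta function of a class `d` of the discriminant group. -/
noncomputable def theta (d : L.D) (τ : ℍ) : ℂ :=
  ∑' y : (L.cls ⁻¹' {d} : Set (Fin n → ℤ)), L.term τ y

theorem summable_term_subtype (d : L.D) {τ : ℂ} (hτ : 0 < τ.im) :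
    Summable fun y : (L.cls ⁻¹' {d} : Set (Fin n → ℤ)) => L.term τ y :=
  (L.summable_term hτ).subtype _

theorem chiRep_eq_exp (y : Fin n → ℤ) :
    L.chiRep y = Complex.exp (π * I * (qf L.B y : ℂ) / p) := by
  unfold chiRep
  rw [ZMod.stdAddChar_coe]
  congr 1
  have := congrArg (fun z : ℤ => (z : ℂ)) (L.two_mul_hq y)
  push_cast at this
  rw [← this]
  ring

theorem term_add_one (τ : ℂ) (y : Fin n → ℤ) : L.term (τ + 1) y = L.chiRep y * L.term τ y := by
  rw [L.chiRep_eq_exp]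
  unfold term
  rw [← Complex.exp_add]
  congr 1
  ring

theorem theta_vadd_one (d : L.D) (τ : ℍ) :
    L.theta d ((1 : ℝ) +ᵥ τ) = L.chi d * L.theta d τ := by
  unfold theta
  rw [← tsum_mul_left]
  refine tsum_congr fun y => ?_
  have h1 : (((1 : ℝ) +ᵥ τ : ℍ) : ℂ) = (τ : ℂ) + 1 := by
    rw [UpperHalfPlane.coe_vadd]; push_cast; ring
  rw [h1, L.term_add_one]
  congr 1
  have := congrArg L.chi y.2
  exact this

theorem theta_slash_T (d : L.D) (k : ℤ) :
    (L.theta d) ∣[k] T = L.chi d • L.theta d := by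
  ext τ
  rw [ModularForm.SL_slash_apply, modular_T_smul, L.theta_vadd_one]
  simp [denom, T]

/-- The fibre of the class map over `cls v` is `v + A ℤⁿ`. -/
noncomputable def fibreEquiv (v : Fin n → ℤ) :
    (Fin n → ℤ) ≃ (L.cls ⁻¹' {L.cls v} : Set (Fin n → ℤ)) :=
  Equiv.ofBijective (fun x => ⟨L.A *ᵥ x + v, by
      rw [Set.mem_preimage, Set.mem_singleton_iff, L.cls_eq_cls]
      exact ⟨x, rfl⟩⟩) (by
    constructor
    · intro x y hxy
      have h := congrArg Subtype.val hxy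
      simp only [add_left_inj] at h
      exact L.injective_mulVec_A h
    · rintro ⟨y, hy⟩
      rw [Set.mem_preimage, Set.mem_singleton_iff, L.cls_eq_cls] at hy
      obtain ⟨x, hx⟩ := hy
      exact ⟨x, Subtype.ext hx⟩)

@[simp] theorem coe_fibreEquiv (v x : Fin n → ℤ) :
    ((L.fibreEquiv v x : (L.cls ⁻¹' {L.cls v} : Set (Fin n → ℤ))) : Fin n → ℤ) = L.A *ᵥ x + v :=
  rfl

theorem theta_cls_eq_tsum (v : Fin n → ℤ) (τ : ℍ) :
    L.theta (L.cls v) τ = ∑' x : Fin n → ℤ, L.term τ (L.A *ᵥ x + v) := by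
  unfold theta
  rw [← (L.fibreEquiv v).tsum_eq]
  rfl

/-- The inversion formula for the lattice, in the form needed for the `S`-law
(dimension `4`, determinant `p²`). -/
def Inversion : Prop :=
  ∀ (τ : ℍ) (v : Fin n → ℤ),
    ∑' x : Fin n → ℤ, L.term (-(τ : ℂ))⁻¹ (L.A *ᵥ x + v)
      = (-(τ : ℂ) ^ 2 / p) * ∑' y : Fin n → ℤ, L.betaRep v y * L.term τ y

theorem norm_betaRep (v w : Fin n → ℤ) : ‖L.betaRep v w‖ = 1 := by
  unfold betaRep
  rw [ZMod.stdAddChar_apply]
  exact Circle.norm_coe _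

theorem tsum_betaRep_term (v : Fin n → ℤ) (τ : ℍ) :
    ∑' y : Fin n → ℤ, L.betaRep v y * L.term τ y
      = ∑ j : L.D, L.beta (L.cls v) j * L.theta j τ := by
  have hs : Summable fun y : Fin n → ℤ => L.betaRep v y * L.term τ y := by
    refine Summable.of_norm ?_
    refine (L.summable_norm_term τ.im_pos).congr fun y => ?_
    rw [norm_mul, L.norm_betaRep, one_mul]
  have h1 := hs.hasSum.tsum_fiberwise L.cls
  rw [← h1.tsum_eq, tsum_fintype]
  refine Finset.sum_congr rfl fun j _ => ?_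
  unfold theta
  rw [← tsum_mul_left]
  refine tsum_congr fun y => ?_
  congr 1
  have hy : L.cls (y : Fin n → ℤ) = j := y.2
  exact congrArg (L.beta (L.cls v)) hy

theorem theta_S_smul (hInv : L.Inversion) (d : L.D) (τ : ℍ) :
    L.theta d (S • τ) = (-(τ : ℂ) ^ 2 / p) * ∑ j : L.D, L.beta d j * L.theta j τ := by
  obtain ⟨v, rfl⟩ := L.exists_cls d
  rw [L.theta_cls_eq_tsum, ← L.tsum_betaRep_term]
  have h1 : ((S • τ : ℍ) : ℂ) = (-(τ : ℂ))⁻¹ := by
    rw [UpperHalfPlane.modular_S_smul]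
  rw [h1, hInv τ v]

theorem theta_slash_S (hInv : L.Inversion) (d : L.D) :
    (L.theta d) ∣[(2 : ℤ)] S = (-(p : ℂ)⁻¹) • ∑ j : L.D, L.beta d j • L.theta j := by
  ext τ
  rw [ModularForm.SL_slash_apply, L.theta_S_smul hInv]
  have hτ : (τ : ℂ) ≠ 0 := UpperHalfPlane.ne_zero τ
  have hp0 : (p : ℂ) ≠ 0 := Nat.cast_ne_zero.mpr hp.out.ne_zero
  have hden : denom (↑S : GL (Fin 2) ℝ) τ = τ := by
    simp [denom, S]
  rw [hden]
  simp only [Pi.smul_apply, Finset.sum_apply, smul_eq_mul]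
  rw [_root_.zpow_neg, show ((τ : ℂ) ^ (2 : ℤ)) = (τ : ℂ) ^ 2 from by norm_cast]
  field_simp

theorem qf_B_nonneg (y : Fin n → ℤ) : 0 ≤ qf L.B y := by
  by_cases hy : y = 0
  · subst hy; simp [qf]
  · have h : toR y ≠ 0 := by
      intro h0
      apply hy
      funext i
      have := congrFun h0 i
      simpa [toR] using this
    have := L.posB (toR y) h
    rw [BR, ← cast_qf] at this
    exact_mod_cast this.le

theorem norm_term_le_of_one_le_im {τ : ℂ} (hτ : 1 ≤ τ.im) (y : Fin n → ℤ) :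
    ‖L.term τ y‖ ≤ ‖L.term Complex.I y‖ := by
  rw [L.norm_term, L.norm_term, Real.exp_le_exp]
  have h1 : (0 : ℝ) ≤ qf L.B y := by exact_mod_cast L.qf_B_nonneg y
  have hp0 : (0 : ℝ) < p := Nat.cast_pos.mpr hp.out.pos
  have h2 : π * Complex.I.im / p ≤ π * τ.im / p := by
    rw [Complex.I_im]
    gcongr
  nlinarith [mul_le_mul_of_nonneg_right h2 h1]

/-- All the `θ_d` are bounded at `i∞`. -/
theorem isBoundedAtImInfty_theta (d : L.D) : IsBoundedAtImInfty (L.theta d) := by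
  rw [UpperHalfPlane.isBoundedAtImInfty_iff]
  refine ⟨∑' y : Fin n → ℤ, ‖L.term Complex.I y‖, 1, fun z hz => ?_⟩
  have hz0 : 0 < (z : ℂ).im := z.im_pos
  have hI : Summable fun y : Fin n → ℤ => ‖L.term Complex.I y‖ :=
    L.summable_norm_term (by simp)
  calc ‖L.theta d z‖ ≤ ∑' y : (L.cls ⁻¹' {d} : Set (Fin n → ℤ)), ‖L.term z y‖ :=
        norm_tsum_le_tsum_norm ((L.summable_norm_term hz0).subtype _)
    _ ≤ ∑' y : Fin n → ℤ, ‖L.term z y‖ :=
        Summable.tsum_subtype_le (fun y : Fin n → ℤ => ‖L.term z y‖) _ (fun _ => norm_nonneg _)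
          (L.summable_norm_term hz0)
    _ ≤ ∑' y : Fin n → ℤ, ‖L.term Complex.I y‖ :=
        (L.summable_norm_term hz0).tsum_le_tsum (fun y => L.norm_term_le_of_one_le_im hz y) hI

theorem term_I_eq (y : Fin n → ℤ) : L.term Complex.I y = ((‖L.term Complex.I y‖ : ℝ) : ℂ) := by
  rw [L.norm_term]
  unfold term
  rw [Complex.ofReal_exp]
  congr 1
  simp only [Complex.I_im]
  push_cast
  have : Complex.I * Complex.I = -1 := Complex.I_mul_I
  linear_combination (π * (qf L.B y : ℂ) / p) * this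

/-- `θ_0` is not the zero function. -/
theorem theta_zero_ne_zero : L.theta 0 ≠ 0 := by
  intro h0
  have h1 := congrFun h0 UpperHalfPlane.I
  unfold theta at h1
  have hsum : Summable fun y : (L.cls ⁻¹' {(0 : L.D)} : Set (Fin n → ℤ)) =>
      ‖L.term Complex.I y‖ :=
    (L.summable_norm_term (by simp)).subtype _
  have h2 : (∑' y : (L.cls ⁻¹' {(0 : L.D)} : Set (Fin n → ℤ)), L.term UpperHalfPlane.I y)
      = ((∑' y : (L.cls ⁻¹' {(0 : L.D)} : Set (Fin n → ℤ)), ‖L.term Complex.I y‖ : ℝ) : ℂ) := by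
    rw [Complex.ofReal_tsum]
    refine tsum_congr fun y => ?_
    exact L.term_I_eq y
  rw [h2] at h1
  have h3 : 0 < ∑' y : (L.cls ⁻¹' {(0 : L.D)} : Set (Fin n → ℤ)), ‖L.term Complex.I y‖ := by
    refine hsum.tsum_pos (fun _ => norm_nonneg _) ⟨0, by simp⟩ ?_
    rw [L.norm_term]
    exact Real.exp_pos _
  have h4 : (∑' y : (L.cls ⁻¹' {(0 : L.D)} : Set (Fin n → ℤ)), ‖L.term Complex.I y‖) = 0 := by
    have h5 : ((∑' y : (L.cls ⁻¹' {(0 : L.D)} : Set (Fin n → ℤ)), ‖L.term Complex.I y‖ : ℝ) : ℂ)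
        = 0 := h1
    exact_mod_cast h5
  linarith

/-- The theta family of a lattice of dimension `4` satisfying the inversion formula is a Weil
family of weight `2`. -/
theorem isWeilFamily (hInv : L.Inversion) :
    IsWeilFamily L.quadDatum L.theta 2 (-(p : ℂ)⁻¹) where
  even := even_two
  slash_T := fun d => L.theta_slash_T d 2
  slash_S := fun d => L.theta_slash_S hInv d
  ne_zero := L.theta_zero_ne_zero

/-- **Invariance of `θ_0` under `Γ₀(p)`.** -/
theorem theta_zero_slash (hInv : L.Inversion) {γ : SL(2, ℤ)}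
    (hγ : γ ∈ CongruenceSubgroup.Gamma0 p) : L.theta 0 ∣[(2 : ℤ)] γ = L.theta 0 :=
  (L.isWeilFamily hInv).slash_eq_of_mem_Gamma0 hγ

/-- All `SL(2, ℤ)`-translates of `θ_0` are bounded at `i∞`. -/
theorem isBoundedAtImInfty_theta_zero_slash (hInv : L.Inversion) (γ : SL(2, ℤ)) :
    IsBoundedAtImInfty (L.theta 0 ∣[(2 : ℤ)] γ) := by
  obtain ⟨a, ha⟩ := (L.isWeilFamily hInv).exists_slash_eq_lin γ
  rw [ha]
  unfold IsWeilFamily.lin
  classical
  have : ∀ s : Finset L.D, IsBoundedAtImInfty (∑ h ∈ s, a h • L.theta h) := by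
    intro s
    induction s using Finset.induction_on with
    | empty =>
      simp only [Finset.sum_empty]
      exact Filter.const_boundedAtFilter _ (0 : ℂ)
    | insert i t hi ih =>
      rw [Finset.sum_insert hi]
      exact Filter.BoundedAtFilter.add ((L.isBoundedAtImInfty_theta i).const_smul_left (a i)) ih
  exact this _

end LevelLattice

end Fermat.Agent.S16.H354
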