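import Fermat.Agent.S16.H354.WeilAbstract
import Fermat.Agent.S16.H354.Gaussian

/-!
# S16 / LB — the finite quadratic module of an even lattice of level `p`

`LevelLattice p n`: Gram matrix `A` (even, symmetric, positive definite, `det = p²`) together with
`B = p A⁻¹` (even, integral).  We build the discriminant group `D = ℤⁿ / A ℤⁿ`, show
`card D = p²`, and construct the `QuadDatum p D` with `χ = e(vᵀBv / 2p)`, `β = e(vᵀBw / p)`.
-/

set_option autoImplicit false
set_option linter.unusedSectionVars false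

open Matrix

namespace Fermat.Agent.S16.H354

/-- An even lattice of level `p` and determinant `p²`, with Gram matrix `A` and `B = p A⁻¹`. -/
structure LevelLattice (p n : ℕ) where
  A : Matrix (Fin n) (Fin n) ℤ
  B : Matrix (Fin n) (Fin n) ℤ
  A_symm : A.IsSymm
  B_symm : B.IsSymm
  A_mul_B : A * B = (p : ℤ) • (1 : Matrix (Fin n) (Fin n) ℤ)
  B_mul_A : B * A = (p : ℤ) • (1 : Matrix (Fin n) (Fin n) ℤ)
  A_even : ∀ i, Even (A i i)
  B_even : ∀ i, Even (B i i)
  pos : ∀ x : Fin n → ℝ, x ≠ 0 → 0 < x ⬝ᵥ (A.map (Int.cast : ℤ → ℝ) *ᵥ x)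
  det_eq : A.det = (p : ℤ) ^ 2

namespace LevelLattice

variable {p n : ℕ} [hp : Fact p.Prime] (L : LevelLattice p n)

/-- The quadratic form of a matrix. -/
def qf (M : Matrix (Fin n) (Fin n) ℤ) (x : Fin n → ℤ) : ℤ := x ⬝ᵥ (M *ᵥ x)

/-- The bilinear form of a matrix. -/
def bf (M : Matrix (Fin n) (Fin n) ℤ) (x y : Fin n → ℤ) : ℤ := x ⬝ᵥ (M *ᵥ y)

theorem bf_symm {M : Matrix (Fin n) (Fin n) ℤ} (hM : M.IsSymm) (x y : Fin n → ℤ) :
    bf M x y = bf M y x := by
  unfold bf
  rw [dotProduct_mulVec, ← mulVec_transpose, hM.eq, dotProduct_comm]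

theorem bf_add_left (M : Matrix (Fin n) (Fin n) ℤ) (x x' y : Fin n → ℤ) :
    bf M (x + x') y = bf M x y + bf M x' y := by
  unfold bf; rw [add_dotProduct]

theorem bf_add_right (M : Matrix (Fin n) (Fin n) ℤ) (x y y' : Fin n → ℤ) :
    bf M x (y + y') = bf M x y + bf M x y' := by
  unfold bf; rw [mulVec_add, dotProduct_add]

theorem bf_neg_left (M : Matrix (Fin n) (Fin n) ℤ) (x y : Fin n → ℤ) :
    bf M (-x) y = - bf M x y := by
  unfold bf; rw [neg_dotProduct]

theorem bf_neg_right (M : Matrix (Fin n) (Fin n) ℤ) (x y : Fin n → ℤ) :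
    bf M x (-y) = - bf M x y := by
  unfold bf; rw [mulVec_neg, dotProduct_neg]

theorem qf_eq_bf (M : Matrix (Fin n) (Fin n) ℤ) (x : Fin n → ℤ) : qf M x = bf M x x := rfl

theorem qf_add {M : Matrix (Fin n) (Fin n) ℤ} (hM : M.IsSymm) (x y : Fin n → ℤ) :
    qf M (x + y) = qf M x + qf M y + 2 * bf M x y := by
  simp only [qf_eq_bf, bf_add_left, bf_add_right, bf_symm hM y x]
  ring

theorem qf_neg (M : Matrix (Fin n) (Fin n) ℤ) (x : Fin n → ℤ) : qf M (-x) = qf M x := by
  simp only [qf_eq_bf, bf_neg_left, bf_neg_right, neg_neg]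

/-- A symmetric matrix with even diagonal has an even quadratic form. -/
theorem even_qf {M : Matrix (Fin n) (Fin n) ℤ} (hM : M.IsSymm) (hev : ∀ i, Even (M i i))
    (x : Fin n → ℤ) : Even (qf M x) := by
  -- work modulo 2
  rw [even_iff_two_dvd, ← Nat.cast_ofNat (R := ℤ), ← ZMod.intCast_zmod_eq_zero_iff_dvd]
  unfold qf dotProduct mulVec dotProduct
  push_cast
  simp only [Finset.mul_sum]
  -- split the double sum into diagonal and off-diagonal parts
  have hdiag : ∀ i, ((M i i : ℤ) : ZMod 2) = 0 := fun i => by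
    rw [ZMod.intCast_zmod_eq_zero_iff_dvd]
    exact_mod_cast (even_iff_two_dvd.mp (hev i))
  have hsym : ∀ i j, M i j = M j i := fun i j => by
    have := congrFun (congrFun hM.eq j) i
    simpa [transpose_apply] using this
  -- the sum is invariant under swapping, and the diagonal vanishes: use the involution lemma
  let f : Fin n → Fin n → ZMod 2 := fun i j => (x i : ZMod 2) * ((M i j : ZMod 2) * (x j : ZMod 2))
  have hf : ∀ i j, f i j = f j i := fun i j => by
    simp only [f, hsym i j]; ring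
  have hfd : ∀ i, f i i = 0 := fun i => by simp [f, hdiag]
  change ∑ i, ∑ j, f i j = 0
  rw [← Finset.sum_product']
  refine Finset.sum_involution (fun a _ => (a.2, a.1)) ?_ ?_ ?_ ?_
  · intro a _
    rw [hf a.1 a.2]
    exact CharTwo.add_self_eq_zero _
  · intro a _ ha h
    apply ha
    have : a.1 = a.2 := by
      have := congrArg Prod.fst h
      simpa using this.symm
    rw [show a = (a.1, a.1) from Prod.ext rfl this.symm]
    exact hfd _
  · intro a _; exact Finset.mem_univ _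
  · intro a _; rfl

theorem mulVec_A_B (x : Fin n → ℤ) : L.A *ᵥ (L.B *ᵥ x) = (p : ℤ) • x := by
  rw [mulVec_mulVec, L.A_mul_B, smul_mulVec, one_mulVec]

theorem mulVec_B_A (x : Fin n → ℤ) : L.B *ᵥ (L.A *ᵥ x) = (p : ℤ) • x := by
  rw [mulVec_mulVec, L.B_mul_A, smul_mulVec, one_mulVec]

theorem bf_B_A_left (x y : Fin n → ℤ) : bf L.B (L.A *ᵥ x) y = p * (x ⬝ᵥ y) := by
  rw [bf_symm L.B_symm]
  unfold bf
  rw [L.mulVec_B_A, dotProduct_smul, dotProduct_comm, smul_eq_mul]

theorem bf_B_A_right (x y : Fin n → ℤ) : bf L.B x (L.A *ᵥ y) = p * (x ⬝ᵥ y) := by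
  unfold bf
  rw [L.mulVec_B_A, dotProduct_smul, smul_eq_mul]

theorem qf_B_A (x : Fin n → ℤ) : qf L.B (L.A *ᵥ x) = p * qf L.A x := by
  rw [qf_eq_bf, L.bf_B_A_left]
  rfl

/-- The key expansion `q_B (A x + v) = p (q_A x + 2 x·v) + q_B v`. -/
theorem qf_B_add (x v : Fin n → ℤ) :
    qf L.B (L.A *ᵥ x + v) = p * (qf L.A x + 2 * (x ⬝ᵥ v)) + qf L.B v := by
  rw [qf_add L.B_symm, L.qf_B_A, L.bf_B_A_left]
  ring

theorem injective_mulVec_A : Function.Injective (fun x : Fin n → ℤ => L.A *ᵥ x) := by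
  intro x y hxy
  have h := congrArg (fun z => L.B *ᵥ z) hxy
  simp only [L.mulVec_B_A] at h
  have hp0 : (p : ℤ) ≠ 0 := Int.natCast_ne_zero.mpr hp.out.ne_zero
  exact smul_right_injective _ hp0 h

/-- The sublattice `A ℤⁿ`. -/
def sub : Submodule ℤ (Fin n → ℤ) := LinearMap.range L.A.mulVecLin

theorem mem_sub {y : Fin n → ℤ} : y ∈ L.sub ↔ ∃ x : Fin n → ℤ, L.A *ᵥ x = y := by
  simp [sub, LinearMap.mem_range]

/-- The discriminant group `ℤⁿ / A ℤⁿ`. -/
abbrev D : Type := (Fin n → ℤ) ⧸ L.sub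

/-- The class of a vector in the discriminant group. -/
abbrev cls (v : Fin n → ℤ) : L.D := Submodule.Quotient.mk v

theorem cls_eq_cls {v w : Fin n → ℤ} : L.cls v = L.cls w ↔ ∃ x : Fin n → ℤ, L.A *ᵥ x + w = v := by
  rw [Submodule.Quotient.eq, L.mem_sub]
  constructor
  · rintro ⟨x, hx⟩; exact ⟨x, by rw [hx]; abel⟩
  · rintro ⟨x, hx⟩; exact ⟨x, by rw [← hx]; abel⟩

theorem cls_eq_zero {v : Fin n → ℤ} : L.cls v = 0 ↔ ∃ x : Fin n → ℤ, L.A *ᵥ x = v := by
  rw [Submodule.Quotient.mk_eq_zero, L.mem_sub]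

theorem natCard_D : Nat.card L.D = p ^ 2 := by
  have hinj : Function.Injective L.A.mulVecLin := L.injective_mulVec_A
  let e : (Fin n → ℤ) ≃ₗ[ℤ] L.sub := LinearEquiv.ofInjective L.A.mulVecLin hinj
  have h1 := Submodule.natAbs_det_equiv L.sub e
  have h2 : L.sub.subtype ∘ₗ AddMonoidHom.toIntLinearMap ((e : (Fin n → ℤ) →+ L.sub))
      = Matrix.toLin' L.A := by
    ext x i
    simp only [LinearMap.coe_comp, Submodule.coe_subtype, Function.comp_apply,
      AddMonoidHom.coe_toIntLinearMap, Matrix.toLin'_apply']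
    rfl
  rw [h2, LinearMap.det_toLin', L.det_eq] at h1
  rw [← h1]
  simp [Int.natAbs_pow]

instance finite_D : Finite L.D := by
  apply Nat.finite_of_card_ne_zero
  rw [L.natCard_D]
  exact pow_ne_zero _ hp.out.ne_zero

noncomputable instance fintype_D : Fintype L.D := Fintype.ofFinite _

theorem card_D : Fintype.card L.D = p ^ 2 := by
  rw [← Nat.card_eq_fintype_card, L.natCard_D]

/-- Half of the quadratic form of `B`. -/
def hq (v : Fin n → ℤ) : ℤ := qf L.B v / 2

theorem two_mul_hq (v : Fin n → ℤ) : 2 * L.hq v = qf L.B v :=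
  Int.mul_ediv_cancel' (even_iff_two_dvd.mp (even_qf L.B_symm L.B_even v))

/-- Half of the quadratic form of `A`. -/
def hqA (x : Fin n → ℤ) : ℤ := qf L.A x / 2

theorem two_mul_hqA (x : Fin n → ℤ) : 2 * L.hqA x = qf L.A x :=
  Int.mul_ediv_cancel' (even_iff_two_dvd.mp (even_qf L.A_symm L.A_even x))

theorem hq_add (v w : Fin n → ℤ) : L.hq (v + w) = L.hq v + L.hq w + bf L.B v w := by
  have h := qf_add L.B_symm v w
  rw [← L.two_mul_hq, ← L.two_mul_hq, ← L.two_mul_hq] at h
  linarith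

theorem hq_neg (v : Fin n → ℤ) : L.hq (-v) = L.hq v := by
  unfold hq; rw [qf_neg]

theorem hq_A_add (x v : Fin n → ℤ) :
    L.hq (L.A *ᵥ x + v) = p * (L.hqA x + x ⬝ᵥ v) + L.hq v := by
  have h := L.qf_B_add x v
  rw [← L.two_mul_hq, ← L.two_mul_hq, ← L.two_mul_hqA] at h
  linarith

theorem hq_zero : L.hq 0 = 0 := by
  unfold hq qf; simp

/-- `χ` on representatives. -/
noncomputable def chiRep (v : Fin n → ℤ) : ℂ := ZMod.stdAddChar ((L.hq v : ℤ) : ZMod p)

/-- `β` on representatives. -/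
noncomputable def betaRep (v w : Fin n → ℤ) : ℂ := ZMod.stdAddChar ((bf L.B v w : ℤ) : ZMod p)

theorem chiRep_A_add (x v : Fin n → ℤ) : L.chiRep (L.A *ᵥ x + v) = L.chiRep v := by
  unfold chiRep
  rw [L.hq_A_add]
  push_cast
  simp

theorem betaRep_A_add_left (x v w : Fin n → ℤ) :
    L.betaRep (L.A *ᵥ x + v) w = L.betaRep v w := by
  unfold betaRep
  rw [bf_add_left, L.bf_B_A_left]
  push_cast
  simp

theorem betaRep_symm (v w : Fin n → ℤ) : L.betaRep v w = L.betaRep w v := by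
  unfold betaRep; rw [bf_symm L.B_symm]

theorem betaRep_A_add_right (x v w : Fin n → ℤ) :
    L.betaRep v (L.A *ᵥ x + w) = L.betaRep v w := by
  rw [betaRep_symm, betaRep_A_add_left, betaRep_symm]

/-- The quadratic character `χ = e(q_B / 2p)` on the discriminant group. -/
noncomputable def chi (d : L.D) : ℂ :=
  Quotient.liftOn' d L.chiRep (by
    intro v w hvw
    have : L.cls v = L.cls w := Quotient.sound' hvw
    obtain ⟨x, rfl⟩ := L.cls_eq_cls.mp this
    exact L.chiRep_A_add x w)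

/-- The bicharacter `β = e(B / p)` on the discriminant group. -/
noncomputable def beta (d e : L.D) : ℂ :=
  Quotient.liftOn₂' d e L.betaRep (by
    intro v₁ w₁ v₂ w₂ hv hw
    have h1 : L.cls v₁ = L.cls v₂ := Quotient.sound' hv
    have h2 : L.cls w₁ = L.cls w₂ := Quotient.sound' hw
    obtain ⟨x, rfl⟩ := L.cls_eq_cls.mp h1
    obtain ⟨y, rfl⟩ := L.cls_eq_cls.mp h2
    rw [L.betaRep_A_add_left, L.betaRep_A_add_right])

@[simp] theorem chi_cls (v : Fin n → ℤ) : L.chi (L.cls v) = L.chiRep v := rfl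

@[simp] theorem beta_cls (v w : Fin n → ℤ) : L.beta (L.cls v) (L.cls w) = L.betaRep v w := rfl

theorem exists_cls (d : L.D) : ∃ v, L.cls v = d := Submodule.Quotient.mk_surjective _ d

theorem chiRep_add (v w : Fin n → ℤ) :
    L.chiRep (v + w) = L.chiRep v * L.chiRep w * L.betaRep v w := by
  unfold chiRep betaRep
  rw [L.hq_add]
  push_cast
  rw [AddChar.map_add_eq_mul, AddChar.map_add_eq_mul]

theorem betaRep_add_left (v v' w : Fin n → ℤ) :
    L.betaRep (v + v') w = L.betaRep v w * L.betaRep v' w := by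
  unfold betaRep
  rw [bf_add_left]
  push_cast
  rw [AddChar.map_add_eq_mul]

theorem chiRep_pow (v : Fin n → ℤ) : L.chiRep v ^ p = 1 := by
  unfold chiRep
  rw [← AddChar.map_nsmul_eq_pow]
  simp

theorem betaRep_ne_one_of_not_mem {w : Fin n → ℤ} (hw : L.cls w ≠ 0) :
    ∃ v : Fin n → ℤ, L.betaRep v w ≠ 1 := by
  -- otherwise `B w ∈ p ℤⁿ`, so `p w = A (B w) ∈ p A ℤⁿ`
  by_contra hall
  push Not at hall
  apply hw
  have hdiv : ∀ i, (p : ℤ) ∣ (L.B *ᵥ w) i := by
    intro i
    have h := hall (Pi.single i 1)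
    unfold betaRep bf at h
    rw [single_dotProduct, one_mul] at h
    have h2 : ((L.B *ᵥ w) i : ZMod p) = 0 := by
      have := (ZMod.isPrimitive_stdAddChar p)
      by_contra hne
      have h3 := ZMod.injective_stdAddChar (N := p)
      apply hne
      apply h3
      rw [h, AddChar.map_zero_eq_one]
    exact (ZMod.intCast_zmod_eq_zero_iff_dvd _ p).mp h2
  choose m hm using hdiv
  rw [L.cls_eq_zero]
  refine ⟨m, ?_⟩
  have hp0 : (p : ℤ) ≠ 0 := Int.natCast_ne_zero.mpr hp.out.ne_zero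
  have h1 : L.B *ᵥ w = (p : ℤ) • m := by
    funext i; rw [hm i]; simp
  have h2 := L.mulVec_A_B w
  rw [h1, mulVec_smul] at h2
  exact smul_right_injective _ hp0 h2

/-- The quadratic datum of the lattice. -/
noncomputable def quadDatum : QuadDatum p L.D where
  χ := L.chi
  β := L.beta
  card_eq := L.card_D
  χ_add := by
    intro h k
    obtain ⟨v, rfl⟩ := L.exists_cls h
    obtain ⟨w, rfl⟩ := L.exists_cls k
    exact L.chiRep_add v w
  χ_neg := by
    intro h
    obtain ⟨v, rfl⟩ := L.exists_cls h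
    change L.chiRep (-v) = L.chiRep v
    unfold chiRep; rw [L.hq_neg]
  χ_pow := by
    intro h
    obtain ⟨v, rfl⟩ := L.exists_cls h
    exact L.chiRep_pow v
  β_add_left := by
    intro h h' k
    obtain ⟨v, rfl⟩ := L.exists_cls h
    obtain ⟨v', rfl⟩ := L.exists_cls h'
    obtain ⟨w, rfl⟩ := L.exists_cls k
    exact L.betaRep_add_left v v' w
  β_symm := by
    intro h k
    obtain ⟨v, rfl⟩ := L.exists_cls h
    obtain ⟨w, rfl⟩ := L.exists_cls k
    exact L.betaRep_symm v w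
  β_nondeg := by
    intro j hj
    obtain ⟨w, rfl⟩ := L.exists_cls j
    obtain ⟨v₀, hv₀⟩ := L.betaRep_ne_one_of_not_mem hj
    have h1 : ∑ k, L.beta k (L.cls w) = ∑ k, L.beta (k + L.cls v₀) (L.cls w) :=
      (Fintype.sum_equiv (Equiv.addRight (L.cls v₀)) _ _ (fun k => rfl)).symm
    have h2 : ∀ k, L.beta (k + L.cls v₀) (L.cls w) = L.beta k (L.cls w) * L.betaRep v₀ w := by
      intro k
      obtain ⟨v, rfl⟩ := L.exists_cls k
      exact L.betaRep_add_left v v₀ w
    simp only [h2, ← Finset.sum_mul] at h1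
    have h3 : (∑ k, L.beta k (L.cls w)) * (1 - L.betaRep v₀ w) = 0 := by
      linear_combination h1
    rcases mul_eq_zero.mp h3 with h | h
    · exact h
    · exact absurd (sub_eq_zero.mp h).symm hv₀

end LevelLattice

end Fermat.Agent.S16.H354
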