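import Mathlib

/-!
# S16 / LB — abstract finite Weil representation ⇒ invariance under `Γ₀(p)`

Pure algebra.  Input: a finite abelian group `D` of order `p ^ 2` with a "quadratic character"
`χ : D → ℂ` (values `p`-th roots of unity) and its polarisation `β`, and a family
`θ : D → ℍ → ℂ` with

* `θ h ∣[k] T = χ h • θ h`,
* `θ h ∣[k] S = c • ∑ j, β h j • θ j`,
* `θ 0 ≠ 0`, `k` even.

Output: `θ 0 ∣[k] γ = θ 0` for all `γ ∈ Γ₀(p)`, and `θ 0 ∣[k] γ ∈ span {θ h}` for all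
`γ ∈ SL(2, ℤ)`.  The value of the Gauss sum `∑ χ = 1 / c` is *derived* from `(S T) ^ 3 = -1`.
-/

set_option autoImplicit false
set_option linter.unusedSectionVars false

open scoped MatrixGroups ModularForm
open ModularGroup UpperHalfPlane Matrix.SpecialLinearGroup

namespace Fermat.Agent.S16.H354

/-- A finite quadratic module of order `p ^ 2`, presented through the exponentials
`χ = e(Q)` and `β = e(B)`. -/
structure QuadDatum (p : ℕ) (D : Type*) [AddCommGroup D] [Fintype D] where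
  χ : D → ℂ
  β : D → D → ℂ
  card_eq : Fintype.card D = p ^ 2
  χ_add : ∀ h k, χ (h + k) = χ h * χ k * β h k
  χ_neg : ∀ h, χ (-h) = χ h
  χ_pow : ∀ h, χ h ^ p = 1
  β_add_left : ∀ h h' k, β (h + h') k = β h k * β h' k
  β_symm : ∀ h k, β h k = β k h
  β_nondeg : ∀ j, j ≠ 0 → ∑ k, β k j = 0

namespace QuadDatum

variable {p : ℕ} [hp : Fact p.Prime] {D : Type*} [AddCommGroup D] [Fintype D]
  (Q : QuadDatum p D)

theorem χ_ne_zero (h : D) : Q.χ h ≠ 0 := by
  intro h0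
  have := Q.χ_pow h
  rw [h0, zero_pow hp.out.ne_zero] at this
  exact zero_ne_one this

theorem β_ne_zero (h k : D) : Q.β h k ≠ 0 := by
  intro h0
  have := Q.χ_add h k
  rw [h0, mul_zero] at this
  exact Q.χ_ne_zero _ this

theorem β_zero_left (k : D) : Q.β 0 k = 1 := by
  have h := Q.β_add_left 0 0 k
  rw [add_zero] at h
  have h0 := Q.β_ne_zero 0 k
  have : Q.β 0 k * (Q.β 0 k - 1) = 0 := by linear_combination -h
  rcases mul_eq_zero.mp this with h1 | h1
  · exact absurd h1 h0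
  · linear_combination h1

theorem β_zero_right (k : D) : Q.β k 0 = 1 := by
  rw [Q.β_symm]; exact Q.β_zero_left k

theorem χ_zero : Q.χ 0 = 1 := by
  have h := Q.χ_add 0 0
  rw [add_zero, Q.β_zero_left, mul_one] at h
  have h0 := Q.χ_ne_zero 0
  have : Q.χ 0 * (Q.χ 0 - 1) = 0 := by linear_combination -h
  rcases mul_eq_zero.mp this with h1 | h1
  · exact absurd h1 h0
  · linear_combination h1

theorem β_add_right (h k k' : D) : Q.β h (k + k') = Q.β h k * Q.β h k' := by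
  rw [Q.β_symm, Q.β_add_left, Q.β_symm k, Q.β_symm k']

theorem β_pow (h k : D) : Q.β h k ^ p = 1 := by
  have h1 := congrArg (· ^ p) (Q.χ_add h k)
  simp only [mul_pow, Q.χ_pow, one_mul] at h1
  exact h1.symm

theorem β_nsmul_right (u : ℕ) (h k : D) : Q.β h (u • k) = Q.β h k ^ u := by
  induction u with
  | zero => simp [Q.β_zero_right]
  | succ n ih => rw [succ_nsmul, Q.β_add_right, ih, pow_succ]

theorem β_nsmul_left (u : ℕ) (h k : D) : Q.β (u • h) k = Q.β h k ^ u := by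
  rw [Q.β_symm, Q.β_nsmul_right, Q.β_symm]

theorem β_self (h : D) : Q.β h h = Q.χ h ^ 2 := by
  have h1 := Q.χ_add h (-h)
  rw [add_neg_cancel, Q.χ_zero, Q.χ_neg] at h1
  have h2 := Q.β_add_right h h (-h)
  rw [add_neg_cancel, Q.β_zero_right] at h2
  have h3 := Q.β_ne_zero h (-h)
  have h4 : Q.β h (-h) * (Q.β h h - Q.χ h ^ 2) = 0 := by
    linear_combination h1 - h2
  rcases mul_eq_zero.mp h4 with h5 | h5
  · exact absurd h5 h3
  · linear_combination h5

theorem χ_nsmul (u : ℕ) (h : D) : Q.χ (u • h) = Q.χ h ^ (u ^ 2) := by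
  induction u with
  | zero => simp [Q.χ_zero]
  | succ n ih =>
    rw [succ_nsmul, Q.χ_add, ih, Q.β_nsmul_left, Q.β_self]
    ring

theorem pow_congr {x : ℂ} (hx : x ^ p = 1) {a b : ℕ} (hab : a ≡ b [MOD p]) : x ^ a = x ^ b := by
  rw [pow_eq_pow_mod a hx, pow_eq_pow_mod b hx, hab]

theorem sum_β_zero : ∑ k, Q.β k 0 = (p : ℂ) ^ 2 := by
  simp only [Q.β_zero_right, Finset.sum_const, Finset.card_univ, Q.card_eq, nsmul_eq_mul, mul_one]
  push_cast
  rfl

open scoped Classical in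
theorem sum_β_mul (h j : D) :
    ∑ k, Q.β h k * Q.β k j = if h + j = 0 then (p : ℂ) ^ 2 else 0 := by
  have : ∀ k, Q.β h k * Q.β k j = Q.β k (h + j) := fun k => by
    rw [Q.β_add_right, Q.β_symm h k]
  simp only [this]
  split_ifs with hj
  · rw [hj, Q.sum_β_zero]
  · exact Q.β_nondeg _ hj

/-- The Gauss sums `∑ χ ^ u`. -/
noncomputable def gauss (u : ℕ) : ℂ := ∑ k, Q.χ k ^ u

/-- Completing the square. -/
theorem χ_pow_mul_β {u u' : ℕ} (huu : u * u' ≡ 1 [MOD p]) (k j : D) :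
    Q.χ k ^ u * Q.β k j = Q.χ (k + u' • j) ^ u * Q.χ j ^ ((p - 1) * u') := by
  have hp1 : 1 ≤ p := hp.out.one_le
  rw [Q.χ_add, Q.χ_nsmul, Q.β_nsmul_right, mul_pow, mul_pow, ← pow_mul, ← pow_mul]
  have e1 : Q.β k j ^ (u' * u) = Q.β k j := by
    rw [pow_congr (Q.β_pow k j) (b := 1) (by rwa [mul_comm]), pow_one]
  have e2 : Q.χ j ^ (u' ^ 2 * u) * Q.χ j ^ ((p - 1) * u') = 1 := by
    rw [← pow_add]
    have : u' ^ 2 * u + (p - 1) * u' ≡ 0 [MOD p] := by
      have h1 : u' ^ 2 * u ≡ u' [MOD p] := by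
        have : u' ^ 2 * u = u' * (u * u') := by ring
        rw [this]
        simpa using huu.mul_left u'
      have h2 : u' + (p - 1) * u' = p * u' := by
        have : p = (p - 1) + 1 := by omega
        nth_rewrite 2 [this]
        ring
      calc u' ^ 2 * u + (p - 1) * u' ≡ u' + (p - 1) * u' [MOD p] := h1.add_right _
        _ = p * u' := h2
        _ ≡ 0 [MOD p] := by
          rw [Nat.modEq_zero_iff_dvd]
          exact dvd_mul_right _ _
    rw [pow_congr (Q.χ_pow j) this, pow_zero]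
  rw [e1]
  calc Q.χ k ^ u * Q.β k j
      = Q.χ k ^ u * Q.β k j * (Q.χ j ^ (u' ^ 2 * u) * Q.χ j ^ ((p - 1) * u')) := by
        rw [e2, mul_one]
    _ = _ := by ring

theorem sum_χ_pow_mul_β {u u' : ℕ} (huu : u * u' ≡ 1 [MOD p]) (j : D) :
    ∑ k, Q.χ k ^ u * Q.β k j = Q.gauss u * Q.χ j ^ ((p - 1) * u') := by
  simp only [Q.χ_pow_mul_β huu, ← Finset.sum_mul]
  congr 1
  exact Fintype.sum_equiv (Equiv.addRight (u' • j)) _ _ (fun k => rfl)

end QuadDatum

open Polynomial in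
/-- If a sum of `p`-th roots of unity is rational, then replacing each root of unity by its
`u`-th power (`p ∤ u`) does not change the sum. -/
theorem sum_pow_eq_of_rational {p : ℕ} [hp : Fact p.Prime] {ι : Type*} [Fintype ι]
    (x : ι → ℂ) (hx : ∀ i, x i ^ p = 1) (g : ℚ) (hg : ∑ i, x i = (g : ℂ))
    {u : ℕ} (hu : ¬ p ∣ u) : ∑ i, x i ^ u = (g : ℂ) := by
  have hp0 : p ≠ 0 := hp.out.ne_zero
  have hζ : IsPrimitiveRoot (Complex.exp (2 * Real.pi * Complex.I / p)) p :=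
    Complex.isPrimitiveRoot_exp p hp0
  set ζ := Complex.exp (2 * Real.pi * Complex.I / p) with hζdef
  have hex : ∀ i, ∃ a : ℕ, ζ ^ a = x i := fun i => by
    obtain ⟨a, -, ha⟩ := hζ.eq_pow_of_pow_eq_one (hx i)
    exact ⟨a, ha⟩
  choose a ha using hex
  let P : ℚ[X] := ∑ i, X ^ (a i) - C g
  have hP : ∀ y : ℂ, aeval y P = ∑ i, y ^ (a i) - (g : ℂ) := by
    intro y
    simp [P, map_sum]
  have h1 : aeval ζ P = 0 := by
    rw [hP]
    simp only [ha, hg, sub_self]
  have hdvd : minpoly ℚ ζ ∣ P := minpoly.dvd ℚ ζ h1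
  rw [← Polynomial.cyclotomic_eq_minpoly_rat hζ (Nat.pos_of_ne_zero hp0)] at hdvd
  have hζu : IsPrimitiveRoot (ζ ^ u) p :=
    hζ.pow_of_coprime u ((Nat.Prime.coprime_iff_not_dvd hp.out).mpr hu).symm
  have h2 : aeval (ζ ^ u) (cyclotomic p ℚ) = 0 := by
    have := hζu.isRoot_cyclotomic (Nat.pos_of_ne_zero hp0)
    rw [← map_cyclotomic p (algebraMap ℚ ℂ), IsRoot.def, eval_map, ← aeval_def] at this
    exact this
  have h3 : aeval (ζ ^ u) P = 0 := by
    obtain ⟨R, hR⟩ := hdvd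
    rw [hR, map_mul, h2, zero_mul]
  rw [hP] at h3
  have h4 : ∀ i, (ζ ^ u) ^ (a i) = x i ^ u := fun i => by
    rw [← ha i, ← pow_mul, ← pow_mul, mul_comm]
  simp only [h4] at h3
  exact sub_eq_zero.mp h3

section Slash

theorem slash_neg (k : ℤ) (hk : Even k) (f : ℍ → ℂ) (γ : SL(2, ℤ)) :
    f ∣[k] (-γ) = f ∣[k] γ := by
  ext τ
  rw [ModularForm.SL_slash_apply, ModularForm.SL_slash_apply, SL_neg_smul]
  congr 1
  have : denom (↑(-γ) : GL (Fin 2) ℝ) τ = - denom (↑γ : GL (Fin 2) ℝ) τ := by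
    simp [denom]
    ring
  rw [this, Even.neg_zpow hk.neg]

theorem slash_neg_one (k : ℤ) (hk : Even k) (f : ℍ → ℂ) :
    f ∣[k] (-1 : SL(2, ℤ)) = f := by
  rw [slash_neg k hk, SlashAction.slash_one]

theorem S_mul_S : (S * S : SL(2, ℤ)) = -1 := by
  ext i j
  fin_cases i <;> fin_cases j <;> simp [S, Matrix.mul_apply, Fin.sum_univ_two]

theorem ST_cube : (S * T * S * T * S * T : SL(2, ℤ)) = -1 := by
  ext i j
  fin_cases i <;> fin_cases j <;> simp [S, T, Matrix.mul_apply, Fin.sum_univ_two]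

end Slash

/-- The hypotheses on a theta family: transformation laws under `T` and `S`. -/
structure IsWeilFamily {p : ℕ} {D : Type*} [AddCommGroup D] [Fintype D]
    (Q : QuadDatum p D) (θ : D → ℍ → ℂ) (k : ℤ) (c : ℂ) : Prop where
  even : Even k
  slash_T : ∀ h, θ h ∣[k] T = Q.χ h • θ h
  slash_S : ∀ h, θ h ∣[k] S = c • ∑ j, Q.β h j • θ j
  ne_zero : θ 0 ≠ 0

namespace IsWeilFamily

variable {p : ℕ} [hp : Fact p.Prime] {D : Type*} [AddCommGroup D] [Fintype D]
  {Q : QuadDatum p D} {θ : D → ℍ → ℂ} {k : ℤ} {c : ℂ} (W : IsWeilFamily Q θ k c)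

/-- Linear combinations of the `θ h`. -/
noncomputable def lin (θ : D → ℍ → ℂ) (a : D → ℂ) : ℍ → ℂ := ∑ h, a h • θ h

open scoped Classical in
theorem lin_single (x : ℂ) : lin θ (fun h => if h = 0 then x else 0) = x • θ 0 := by
  unfold lin
  rw [Finset.sum_eq_single 0]
  · simp
  · intro b _ hb; simp [hb]
  · intro h; exact absurd (Finset.mem_univ _) h

include W

theorem lin_slash_T (a : D → ℂ) :
    lin θ a ∣[k] T = lin θ (fun h => a h * Q.χ h) := by
  unfold lin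
  rw [SlashAction.sum_slash]
  refine Finset.sum_congr rfl fun h _ => ?_
  rw [ModularForm.SL_smul_slash, W.slash_T, smul_smul]

theorem lin_slash_S (a : D → ℂ) :
    lin θ a ∣[k] S = lin θ (fun j => c * ∑ h, a h * Q.β h j) := by
  unfold lin
  rw [SlashAction.sum_slash]
  simp only [ModularForm.SL_smul_slash, W.slash_S, Finset.smul_sum, smul_smul]
  rw [Finset.sum_comm]
  refine Finset.sum_congr rfl fun j _ => ?_
  rw [← Finset.sum_smul]
  congr 1
  rw [Finset.mul_sum]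
  refine Finset.sum_congr rfl fun h _ => ?_
  ring

theorem slash_T_inv (h : D) : θ h ∣[k] T⁻¹ = (Q.χ h)⁻¹ • θ h := by
  have h1 : (θ h ∣[k] T) ∣[k] T⁻¹ = θ h := by
    rw [← SlashAction.slash_mul, mul_inv_cancel, SlashAction.slash_one]
  rw [W.slash_T, ModularForm.SL_smul_slash] at h1
  calc θ h ∣[k] T⁻¹ = (Q.χ h)⁻¹ • (Q.χ h • θ h ∣[k] T⁻¹) := by
        rw [smul_smul, inv_mul_cancel₀ (Q.χ_ne_zero h), one_smul]
    _ = (Q.χ h)⁻¹ • θ h := by rw [h1]

theorem lin_slash_T_inv (a : D → ℂ) :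
    lin θ a ∣[k] T⁻¹ = lin θ (fun h => a h * (Q.χ h)⁻¹) := by
  unfold lin
  rw [SlashAction.sum_slash]
  refine Finset.sum_congr rfl fun h _ => ?_
  rw [ModularForm.SL_smul_slash, W.slash_T_inv, smul_smul]

open scoped Classical in
/-- `c² p² = 1`, from `S² = -1`. -/
theorem c_sq : c ^ 2 * (p : ℂ) ^ 2 = 1 := by
  have h1 : θ 0 ∣[k] (S * S) = θ 0 := by
    rw [S_mul_S, slash_neg_one k W.even]
  have h2 : θ 0 = lin θ (fun h => if h = 0 then 1 else 0) := by
    rw [lin_single, one_smul]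
  rw [SlashAction.slash_mul] at h1
  nth_rewrite 1 [h2] at h1
  rw [W.lin_slash_S, W.lin_slash_S] at h1
  have h3 : (fun j => c * ∑ h, (c * ∑ h' : D, (if h' = 0 then (1 : ℂ) else 0) * Q.β h' h) * Q.β h j)
      = fun j => if j = 0 then c ^ 2 * (p : ℂ) ^ 2 else 0 := by
    funext j
    have : ∀ h : D, (∑ h' : D, (if h' = 0 then (1 : ℂ) else 0) * Q.β h' h) = 1 := by
      intro h
      rw [Finset.sum_eq_single 0]
      · simp [Q.β_zero_left]
      · intro b _ hb; simp [hb]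
      · intro h; exact absurd (Finset.mem_univ _) h
    simp only [this, mul_one]
    rw [← Finset.mul_sum]
    have h4 : ∑ h, Q.β h j = ∑ h, Q.β 0 h * Q.β h j := by
      simp [Q.β_zero_left]
    rw [h4, Q.sum_β_mul, zero_add]
    split_ifs <;> ring
  rw [h3, lin_single] at h1
  by_contra hne
  apply W.ne_zero
  have : (c ^ 2 * (p : ℂ) ^ 2 - 1) • θ 0 = 0 := by
    rw [sub_smul, one_smul, h1, sub_self]
  rcases smul_eq_zero.mp this with h5 | h5
  · exact absurd (sub_eq_zero.mp h5) hne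
  · exact h5

omit W in
open scoped Classical in
theorem coef_S_single (x c : ℂ) :
    (fun j => c * ∑ h : D, (if h = 0 then x else 0) * Q.β h j) = fun _ => c * x := by
  funext j
  rw [Finset.sum_eq_single 0]
  · simp [Q.β_zero_left]
  · intro b _ hb; simp [hb]
  · intro h; exact absurd (Finset.mem_univ _) h

omit W in
open scoped Classical in
theorem coef_S_const (x c : ℂ) :
    (fun j => c * ∑ h : D, x * Q.β h j) = fun j => if j = 0 then c * x * (p : ℂ) ^ 2 else 0 := by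
  funext j
  rw [← Finset.mul_sum]
  have h4 : ∑ h, Q.β h j = ∑ h, Q.β 0 h * Q.β h j := by
    simp [Q.β_zero_left]
  rw [h4, Q.sum_β_mul, zero_add]
  split_ifs <;> ring

omit W in
theorem coef_S_χ_pow (x c : ℂ) {u u' : ℕ} (huu : u * u' ≡ 1 [MOD p]) :
    (fun j => c * ∑ h : D, (x * Q.χ h ^ u) * Q.β h j)
      = fun j => c * x * Q.gauss u * Q.χ j ^ ((p - 1) * u') := by
  funext j
  have : ∀ h : D, (x * Q.χ h ^ u) * Q.β h j = x * (Q.χ h ^ u * Q.β h j) := fun h => by ring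
  simp only [this]
  rw [← Finset.mul_sum, Q.sum_χ_pow_mul_β huu]
  ring

open scoped Classical in
/-- `c ^ 3 * g₁ * p² = 1`, from `(S T) ^ 3 = -1`. -/
theorem c_cube_gauss : c ^ 3 * Q.gauss 1 * (p : ℂ) ^ 2 = 1 := by
  have hp1 : 1 ≤ p := hp.out.one_le
  have h1 : θ 0 ∣[k] (S * T * S * T * S * T) = θ 0 := by
    rw [ST_cube, slash_neg_one k W.even]
  have h2 : θ 0 = lin θ (fun h => if h = 0 then 1 else 0) := by
    rw [lin_single, one_smul]
  simp only [SlashAction.slash_mul] at h1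
  nth_rewrite 1 [h2] at h1
  rw [W.lin_slash_S, coef_S_single, W.lin_slash_T, W.lin_slash_S] at h1
  have e1 : (fun j => c * ∑ h : D, (c * 1 * Q.χ h) * Q.β h j)
      = fun j => c * ∑ h : D, (c * Q.χ h ^ 1) * Q.β h j := by
    funext j; simp
  rw [e1, coef_S_χ_pow (Q := Q) c c (u := 1) (u' := 1) (by simp; rfl), W.lin_slash_T] at h1
  have e2 : (fun h => c * c * Q.gauss 1 * Q.χ h ^ ((p - 1) * 1) * Q.χ h)
      = fun _ => c * c * Q.gauss 1 := by
    funext h
    rw [mul_assoc, ← pow_succ, mul_one, Nat.sub_add_cancel hp1, Q.χ_pow, mul_one]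
  rw [e2, W.lin_slash_S, coef_S_const, W.lin_slash_T] at h1
  have e3 : (fun h => (if h = 0 then c * (c * c * Q.gauss 1) * (p : ℂ) ^ 2 else 0) * Q.χ h)
      = fun h => if h = 0 then c ^ 3 * Q.gauss 1 * (p : ℂ) ^ 2 else 0 := by
    funext h
    split_ifs with h0
    · rw [h0, Q.χ_zero]; ring
    · simp
  rw [e3, lin_single] at h1
  by_contra hne
  apply W.ne_zero
  have : (c ^ 3 * Q.gauss 1 * (p : ℂ) ^ 2 - 1) • θ 0 = 0 := by
    rw [sub_smul, one_smul, h1, sub_self]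
  rcases smul_eq_zero.mp this with h5 | h5
  · exact absurd (sub_eq_zero.mp h5) hne
  · exact h5

theorem c_ne_zero : c ≠ 0 := by
  intro h0
  have := W.c_sq
  rw [h0] at this
  simp at this

theorem c_mul_gauss_one : c * Q.gauss 1 = 1 := by
  have h1 := W.c_sq
  have h2 := W.c_cube_gauss
  have : c ^ 3 * Q.gauss 1 * (p : ℂ) ^ 2 = (c ^ 2 * (p : ℂ) ^ 2) * (c * Q.gauss 1) := by ring
  rw [this, h1, one_mul] at h2
  exact h2

theorem c_eq : c = (p : ℂ)⁻¹ ∨ c = -(p : ℂ)⁻¹ := by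
  have hp0 : (p : ℂ) ≠ 0 := Nat.cast_ne_zero.mpr hp.out.ne_zero
  have h1 := W.c_sq
  have h2 : (c * p - 1) * (c * p + 1) = 0 := by linear_combination h1
  rcases mul_eq_zero.mp h2 with h | h
  · left
    field_simp
    linear_combination h
  · right
    field_simp
    linear_combination h

theorem gauss_one_eq : Q.gauss 1 = (p : ℂ) ∨ Q.gauss 1 = -(p : ℂ) := by
  have hp0 : (p : ℂ) ≠ 0 := Nat.cast_ne_zero.mpr hp.out.ne_zero
  have h1 := W.c_mul_gauss_one
  rcases W.c_eq with h | h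
  · left
    rw [h] at h1
    field_simp at h1
    exact h1
  · right
    rw [h] at h1
    field_simp at h1
    linear_combination -h1

theorem gauss_eq {u : ℕ} (hu : ¬ p ∣ u) : Q.gauss u = Q.gauss 1 := by
  have key : ∀ g : ℚ, Q.gauss 1 = (g : ℂ) → Q.gauss u = Q.gauss 1 := by
    intro g hg
    rw [hg]
    refine sum_pow_eq_of_rational (p := p) Q.χ Q.χ_pow g ?_ hu
    rw [← hg]
    simp [QuadDatum.gauss]
  rcases W.gauss_one_eq with h | h
  · exact key (p : ℚ) (by rw [h]; simp)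
  · exact key (-(p : ℚ)) (by rw [h]; simp)

theorem c_mul_gauss {u : ℕ} (hu : ¬ p ∣ u) : c * Q.gauss u = 1 := by
  rw [W.gauss_eq hu, W.c_mul_gauss_one]

end IsWeilFamily

section Entries

variable (p : ℕ) (γ : SL(2, ℤ))

theorem mul_T_10 : (γ * T) 1 0 = γ 1 0 := by
  simp [T, Matrix.mul_apply, Fin.sum_univ_two]

theorem mul_T_11 : (γ * T) 1 1 = γ 1 0 + γ 1 1 := by
  simp [T, Matrix.mul_apply, Fin.sum_univ_two]

theorem mul_T_inv_10 : (γ * T⁻¹) 1 0 = γ 1 0 := by
  simp [Matrix.mul_apply, Fin.sum_univ_two]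

theorem mul_T_inv_11 : (γ * T⁻¹) 1 1 = γ 1 1 - γ 1 0 := by
  simp [Matrix.mul_apply, Fin.sum_univ_two]
  ring

theorem mul_S_10 : (γ * S) 1 0 = γ 1 1 := by
  simp [S, Matrix.mul_apply, Fin.sum_univ_two]

theorem mul_S_11 : (γ * S) 1 1 = - γ 1 0 := by
  simp [S, Matrix.mul_apply, Fin.sum_univ_two]

theorem S_inv_eq : (S⁻¹ : SL(2, ℤ)) = -S := by
  rw [inv_eq_iff_mul_eq_one, ← neg_mul_comm, neg_mul, S_mul_S, neg_neg]

theorem det_eq : γ 0 0 * γ 1 1 - γ 0 1 * γ 1 0 = 1 := by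
  have := γ.det_coe
  rw [Matrix.det_fin_two] at this
  exact this

end Entries

namespace IsWeilFamily

variable {p : ℕ} [hp : Fact p.Prime] {D : Type*} [AddCommGroup D] [Fintype D]
  {Q : QuadDatum p D} {θ : D → ℍ → ℂ} {k : ℤ} {c : ℂ}

/-- The induction invariant: an explicit formula for `θ 0 ∣[k] γ`. -/
def Inv (Q : QuadDatum p D) (θ : D → ℍ → ℂ) (k : ℤ) (c : ℂ) (γ : SL(2, ℤ)) : Prop :=
  (((γ 1 0 : ℤ) : ZMod p) = 0 → θ 0 ∣[k] γ = θ 0) ∧
  (((γ 1 0 : ℤ) : ZMod p) ≠ 0 → ∃ u : ℕ,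
      (u : ZMod p) * ((γ 1 0 : ℤ) : ZMod p) = ((γ 1 1 : ℤ) : ZMod p) ∧
      θ 0 ∣[k] γ = lin θ (fun h => c * Q.χ h ^ u))

variable (W : IsWeilFamily Q θ k c)

theorem theta_zero_eq_lin : θ 0 = lin θ (fun h => open scoped Classical in if h = 0 then 1 else 0) := by
  rw [lin_single, one_smul]

include W

theorem slash_S_zero : θ 0 ∣[k] S = lin θ (fun h => c * Q.χ h ^ 0) := by
  rw [W.slash_S]
  unfold lin
  rw [Finset.smul_sum]
  refine Finset.sum_congr rfl fun h _ => ?_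
  simp only [smul_smul, Q.β_zero_left, pow_zero]

theorem inv_one : Inv Q θ k c 1 := by
  refine ⟨fun _ => SlashAction.slash_one _ _, fun h => ?_⟩
  simp at h

theorem inv_mul_T {γ : SL(2, ℤ)} (h : Inv Q θ k c γ) : Inv Q θ k c (γ * T) := by
  refine ⟨fun h0 => ?_, fun h0 => ?_⟩
  · rw [mul_T_10] at h0
    rw [SlashAction.slash_mul, h.1 h0, W.slash_T, Q.χ_zero, one_smul]
  · rw [mul_T_10] at h0
    obtain ⟨u, hu, hθ⟩ := h.2 h0
    refine ⟨u + 1, ?_, ?_⟩
    · rw [mul_T_10, mul_T_11]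
      push_cast
      rw [add_mul, one_mul, hu, add_comm]
    · rw [SlashAction.slash_mul, hθ, W.lin_slash_T]
      congr 1
      funext h
      ring

theorem inv_mul_T_inv {γ : SL(2, ℤ)} (h : Inv Q θ k c γ) : Inv Q θ k c (γ * T⁻¹) := by
  have hp1 : 1 ≤ p := hp.out.one_le
  refine ⟨fun h0 => ?_, fun h0 => ?_⟩
  · rw [mul_T_inv_10] at h0
    rw [SlashAction.slash_mul, h.1 h0, W.slash_T_inv, Q.χ_zero, _root_.inv_one, one_smul]
  · rw [mul_T_inv_10] at h0
    obtain ⟨u, hu, hθ⟩ := h.2 h0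
    refine ⟨u + (p - 1), ?_, ?_⟩
    · rw [mul_T_inv_10, mul_T_inv_11]
      push_cast [Nat.cast_sub hp1]
      rw [add_mul, hu]
      simp
      ring
    · rw [SlashAction.slash_mul, hθ, W.lin_slash_T_inv]
      congr 1
      funext h
      have : (Q.χ h)⁻¹ = Q.χ h ^ (p - 1) := by
        symm
        apply eq_inv_of_mul_eq_one_left
        rw [← pow_succ, Nat.sub_add_cancel hp1, Q.χ_pow]
      rw [this, pow_add]
      ring

theorem inv_neg {γ : SL(2, ℤ)} (h : Inv Q θ k c γ) : Inv Q θ k c (-γ) := by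
  have e10 : (-γ) 1 0 = - γ 1 0 := by simp
  have e11 : (-γ) 1 1 = - γ 1 1 := by simp
  refine ⟨fun h0 => ?_, fun h0 => ?_⟩
  · rw [e10] at h0
    rw [slash_neg k W.even]
    exact h.1 (by simpa using h0)
  · rw [e10] at h0
    obtain ⟨u, hu, hθ⟩ := h.2 (by simpa using h0)
    refine ⟨u, ?_, ?_⟩
    · rw [e10, e11]
      push_cast
      rw [mul_neg, hu]
    · rw [slash_neg k W.even]
      exact hθ

theorem inv_mul_S {γ : SL(2, ℤ)} (h : Inv Q θ k c γ) : Inv Q θ k c (γ * S) := by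
  have hp1 : 1 ≤ p := hp.out.one_le
  have hdet : ((γ 0 0 : ℤ) : ZMod p) * ((γ 1 1 : ℤ) : ZMod p)
      - ((γ 0 1 : ℤ) : ZMod p) * ((γ 1 0 : ℤ) : ZMod p) = 1 := by
    have := congrArg (Int.cast : ℤ → ZMod p) (det_eq γ)
    push_cast at this
    exact this
  by_cases hc : ((γ 1 0 : ℤ) : ZMod p) = 0
  · -- old lower-left entry divisible by `p`
    have hd : ((γ 1 1 : ℤ) : ZMod p) ≠ 0 := by
      intro hd
      rw [hc, hd] at hdet
      simp at hdet
    refine ⟨fun h0 => ?_, fun _ => ⟨0, ?_, ?_⟩⟩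
    · rw [mul_S_10] at h0
      exact absurd h0 hd
    · rw [mul_S_10, mul_S_11]
      push_cast
      rw [hc]
      simp
    · rw [SlashAction.slash_mul, h.1 hc, W.slash_S_zero]
  · obtain ⟨u, hu, hθ⟩ := h.2 hc
    by_cases hd : ((γ 1 1 : ℤ) : ZMod p) = 0
    · -- new lower-left entry divisible by `p`
      have hu0 : (u : ZMod p) = 0 := by
        rw [hd] at hu
        rcases mul_eq_zero.mp hu with h1 | h1
        · exact h1
        · exact absurd h1 hc
      have hpu : p ∣ u := (ZMod.natCast_eq_zero_iff u p).mp hu0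
      refine ⟨fun _ => ?_, fun h0 => ?_⟩
      · rw [SlashAction.slash_mul, hθ, W.lin_slash_S]
        have e1 : (fun j => c * ∑ h : D, (c * Q.χ h ^ u) * Q.β h j)
            = fun j => c * ∑ h : D, c * Q.β h j := by
          funext j
          congr 1
          refine Finset.sum_congr rfl fun h _ => ?_
          obtain ⟨m, rfl⟩ := hpu
          rw [pow_mul, Q.χ_pow, one_pow, mul_one]
        rw [e1, coef_S_const, lin_single]
        have : c * c * (p : ℂ) ^ 2 = 1 := by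
          have := W.c_sq
          linear_combination this
        rw [this, one_smul]
      · rw [mul_S_10] at h0
        exact absurd hd h0
    · -- generic case
      have hu0 : (u : ZMod p) ≠ 0 := by
        intro hu0
        rw [hu0, zero_mul] at hu
        exact hd hu.symm
      have hpu : ¬ p ∣ u := fun hpu => hu0 ((ZMod.natCast_eq_zero_iff u p).mpr hpu)
      set u' : ℕ := ((u : ZMod p)⁻¹).val with hu'
      have hu'c : ((u' : ℕ) : ZMod p) = (u : ZMod p)⁻¹ := by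
        rw [hu', ZMod.natCast_zmod_val]
      have huu : u * u' ≡ 1 [MOD p] := by
        rw [← ZMod.natCast_eq_natCast_iff]
        push_cast
        rw [hu'c, mul_inv_cancel₀ hu0]
      refine ⟨fun h0 => ?_, fun _ => ⟨(p - 1) * u', ?_, ?_⟩⟩
      · rw [mul_S_10] at h0
        exact absurd h0 hd
      · rw [mul_S_10, mul_S_11]
        push_cast [Nat.cast_sub hp1]
        rw [hu'c, ← hu]
        simp only [ZMod.natCast_self, zero_sub]
        field_simp
      · rw [SlashAction.slash_mul, hθ, W.lin_slash_S, coef_S_χ_pow c c huu]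
        congr 1
        funext j
        have := W.c_mul_gauss hpu
        linear_combination (c * Q.χ j ^ ((p - 1) * u')) * this

theorem inv_mul_S_inv {γ : SL(2, ℤ)} (h : Inv Q θ k c γ) : Inv Q θ k c (γ * S⁻¹) := by
  rw [S_inv_eq, mul_neg]
  exact W.inv_neg (W.inv_mul_S h)

theorem inv_all (γ : SL(2, ℤ)) : Inv Q θ k c γ := by
  have hγ : γ ∈ Subgroup.closure ({S, T} : Set SL(2, ℤ)) := by
    simp [SpecialLinearGroup.SL2Z_generators]
  induction hγ using Subgroup.closure_induction_right with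
  | one => exact W.inv_one
  | mul_right x _ y hy ih =>
    rcases hy with rfl | rfl
    · exact W.inv_mul_S ih
    · exact W.inv_mul_T ih
  | mul_inv_cancel x _ y hy ih =>
    rcases hy with rfl | rfl
    · exact W.inv_mul_S_inv ih
    · exact W.inv_mul_T_inv ih

/-- **Main theorem (invariance).** `θ 0` is invariant under `Γ₀(p)`. -/
theorem slash_eq_of_mem_Gamma0 {γ : SL(2, ℤ)} (hγ : γ ∈ CongruenceSubgroup.Gamma0 p) :
    θ 0 ∣[k] γ = θ 0 :=
  (W.inv_all γ).1 (CongruenceSubgroup.Gamma0_mem.mp hγ)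

/-- **Main theorem (span).** Every `SL(2, ℤ)`-translate of `θ 0` is a linear combination of
the `θ h`. -/
theorem exists_slash_eq_lin (γ : SL(2, ℤ)) : ∃ a : D → ℂ, θ 0 ∣[k] γ = lin θ a := by
  by_cases hc : ((γ 1 0 : ℤ) : ZMod p) = 0
  · exact ⟨_, ((W.inv_all γ).1 hc).trans (theta_zero_eq_lin)⟩
  · obtain ⟨u, -, hu⟩ := (W.inv_all γ).2 hc
    exact ⟨_, hu⟩

end IsWeilFamily

end Fermat.Agent.S16.H354
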